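import Fermat.Agent.S48.C1.Inst.Main
import Fermat.Agent.S48.X1.CuspPoly
import Fermat.Agent.S48.X1.F1Q
import Fermat.Agent.S48.EIS.Bridge
import Fermat.Agent.S48.EIS.Prim

/-!
# S48 / C1 / Inst : the analytic model of `F₁(M) = ℚ̄(j, x_{(0,a)} : a ∈ (ℤ/M)ˣ)`, its degree, its packs, and **CRUX for `F₁(M)`**

* `modelF1 M` : `I = (ℤ/M)ˣ`, `V = ` vectors of exact order `M`, tuples `a ↦ x_{a v}`;
* `hasPacks_F1` : the Taylor packs of `F₁(M)` over `ℚ̄(j)`;
* `crux1_F1` : `B1.Crux1 (X1.F1Q M) p d` for all primes `p ∤ M`, `d ≠ p`.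
-/

set_option autoImplicit false
set_option linter.unusedSectionVars false

open Polynomial ModularCurve UpperHalfPlane Matrix
open scoped MatrixGroups IntermediateField

namespace Fermat.Agent.S48.C1.Inst

noncomputable section

open Fermat.Agent.ES (Qb)
open Fermat.Agent.S24 (iotaC)

variable (M : ℕ) [NeZero M]

/-- vectors of exact order `M`. -/
abbrev PV : Type := {v : Fin 2 → ZMod M // addOrderOf v = M}

variable {M}

theorem addOrderOf_unit_smul (a : (ZMod M)ˣ) (v : Fin 2 → ZMod M) :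
    addOrderOf ((a : ZMod M) • v) = addOrderOf v := by
  let f : (Fin 2 → ZMod M) →+ (Fin 2 → ZMod M) :=
    { toFun := fun v => (a : ZMod M) • v
      map_zero' := smul_zero _
      map_add' := fun x y => smul_add _ x y }
  have hf : Function.Injective f := by
    intro x y hxy
    have h1 : ((a⁻¹ : (ZMod M)ˣ) : ZMod M) • ((a : ZMod M) • x)
        = ((a⁻¹ : (ZMod M)ˣ) : ZMod M) • ((a : ZMod M) • y) := congrArg _ hxy
    rwa [smul_smul, smul_smul, Units.inv_mul, one_smul, one_smul] at h1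
  exact addOrderOf_injective f hf v

theorem unit_smul_ne_zero (hM : 1 < M) (a : (ZMod M)ˣ) (v : PV M) : (a : ZMod M) • v.1 ≠ 0 :=
  EIS.ne_zero_of_addOrderOf hM _ (by rw [addOrderOf_unit_smul]; exact v.2)

theorem smul_zero_one (a : ZMod M) : a • (![0, 1] : Fin 2 → ZMod M) = ![0, a] := by
  funext i
  fin_cases i <;> simp

variable (M)

/-- **the analytic model of `F₁(M)`.** -/
def modelF1 (hM : 1 < M) : AnModel (ZMod M)ˣ (PV M) M where
  gS a := X1.xg M (a : ZMod M)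
  tH v a := EIS.Xf M ((a : ZMod M) • v.1)
  tS v a := EIS.xs (X1.zM M) ((a : ZMod M) • v.1)
  v₀ := ⟨![0, 1], by simpa using EIS.addOrderOf_zero_unit (M := M) 1⟩
  hol v a := EIS.Xf_mem_HolCusp _
  lau v a := by
    rw [EIS.laurent_Xf _ (unit_smul_ne_zero hM a v), EIS.coeffMap_xs, X1.iotaC_zM]
  base a := by
    show EIS.xs (X1.zM M) ((a : ZMod M) • (![0, 1] : Fin 2 → ZMod M)) = _
    rw [smul_zero_one, EIS.xs_zero]
    rfl
  act γ v := ⟨⟨v.1 ᵥ* γ, by rw [EIS.addOrderOf_vecMul]; exact v.2⟩, fun a τ => by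
    rw [EIS.Xf_smul, smul_vecMul]⟩
  trans v := by
    obtain ⟨γ, hγ⟩ := EIS.exists_zero_one_vecMul_eq v.1 v.2
    exact ⟨γ, fun a τ => by rw [EIS.Xf_smul, smul_vecMul, hγ]⟩

theorem modelF1_G (hM : 1 < M) : (modelF1 M hM).G = X1.G1 M := rfl

/-- a prime not dividing `M`. -/
theorem exists_prime_not_dvd : ∃ p : ℕ, p.Prime ∧ ¬ p ∣ M := by
  obtain ⟨p, hp1, hp2⟩ := Nat.exists_infinite_primes (M + 1)
  exact ⟨p, hp2, fun h => by
    have := Nat.le_of_dvd (Nat.pos_of_ne_zero (NeZero.ne M)) h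
    omega⟩

theorem hcusp_F1 (hM : 5 ≤ M) (p : ℕ) (hp : p.Prime) (hpM : ¬ p ∣ M) (A : ValuationSubring Qb)
    (hA : A.LiesOverPrime p) : ∀ g ∈ X1.G1 M, HasCuspPolyQ A M (qExpand Qb M g) := by
  rintro _ ⟨a, rfl⟩
  exact X1.hasCuspPolyQ M hM p hp hpM A hA (X1.zM M) (X1.iotaC_zM M) a

theorem finiteDimensional_F1 (hM : 5 ≤ M) :
    FiniteDimensional Qb⟮jF0 Qb (X1.G1 M)⟯ (F0 Qb (X1.G1 M)) := by
  obtain ⟨p, hp, hpM⟩ := exists_prime_not_dvd M
  obtain ⟨A, hA⟩ : ∃ A : ValuationSubring Qb, A.LiesOverPrime p :=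
    Fermat.Agent.S54.exists_liesOverPrime p hp
  exact finiteDimensional_F0 (X1.G1 M) (X1.finite_G1 M) (IsLocalRing.residue A) M
    fun g hg => (hcusp_F1 M hM p hp hpM A hA g hg).hasCuspPoly

/-- **the packs of `F₁(M)`.** -/
theorem hasPacks_F1 (hM : 5 ≤ M) :
    HasPacks (F0 Qb (X1.G1 M)) (jF0 Qb (X1.G1 M)) (fun _ => True) := by
  classical
  obtain ⟨V', hV', m', hinj, hg, -⟩ := (modelF1 M (by omega)).quot
  have : Fintype V' := Fintype.ofFinite V'
  have hG : m'.G = X1.G1 M := by rw [AnModel.G, hg]; rfl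
  have hfd := finiteDimensional_F1 M hM
  rw [← hG] at hfd ⊢
  exact m'.hasPacks hinj (m'.finrank_eq hinj)

/-- **CRUX for `F₁(M)`.** -/
theorem crux1_F1 (hM : 5 ≤ M) (p d : ℕ) (hp : p.Prime) (hpM : ¬ p ∣ M) (hd : d.Prime)
    (hdp : d ≠ p) : B1.Crux1 (X1.F1Q M) p d := by
  refine crux1_of_data (X1.F1Q M) (X1.G1 M) (X1.finite_G1 M) rfl ?_ M p d hp hd hdp
    (fun A hA => hcusp_F1 M hM p hp hpM A hA) (hasPacks_F1 M hM)
  rintro _ ⟨a, rfl⟩
  exact NFCoeff.of_fgCoeff (X1.fgCoeff_xg _)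

end

end Fermat.Agent.S48.C1.Inst
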