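import Fermat.Agent.S28.FormalBasic

/-!
# S48 / C1 / Inst : formal descent of polynomials in `j(x^h)`

TASK S48/C1-Inst-FD.   (`S28.FormalBasic` only.)

* `exists_poly_lift` : `f : A → B` injective, `p ∈ B[X]`, `p(j(x^h)) = f(s)` with `s ∈ A((x))`.  Then `p` comes from `A[X]`.
  PROOF: strong induction on `n ≥ p.natDegree` (generalising `p`, `s`).  `S28.Build.coeff_evAt_V_J h p n hn :
  (evAt (V B h (J B)) p).coeff (h * -n) = p.coeff n`, so `p.coeff n = f a`, `a := s.coeff (h * -n)`.  Apply the induction hypothesis to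
  `p - C (f a) * X^n` (degree `< n`, or `n = 0`: `p = C (f a)`) and `s - HahnSeries.C a * (V A h (J A))^n`
  (`S28.Build.coeffMap_V`, `coeffMap_J`, `coeffMap_C`).  Last claim: `coeffMap f` is injective (`S28.Build.coeffMap_injective`) and
  `S28.Build.coeffMap_evAt`.
* `exists_Phi_lift` : apply it to every coefficient of `Φ` (`s :=` the coefficient of `∏ (X - C (Y t))`;
  `(∏ (X - C (Y t))).map (coeffMap f) = ∏ (X - C (coeffMap f (Y t)))`, `Polynomial.map_prod`); `Φ' := ∑ k ∈ range (Φ.natDegree + 1), C (p' k) * X^k`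
  or via `Polynomial.lifts`.  Monic: `Polynomial.monic_of_injective (S28.Build.evAt_V_J_injective h)` and `Polynomial.monic_prod_of_monic`, `monic_X_sub_C`.
-/

set_option autoImplicit false

open Polynomial ModularCurve

namespace Fermat.Agent.S48.C1.Inst

open Fermat.Agent.S28 (evAt)

theorem FD_aux {A B : Type*} [CommRing A] [CommRing B] (f : A →+* B) (h : ℕ) [NeZero h] :
    ∀ (n : ℕ) (p : B[X]) (s : LaurentSeries A), (∀ m, n ≤ m → p.coeff m = 0) →
      evAt (qExpand B h (jqModC B)) p = coeffMap f s → ∃ p' : A[X], p'.map f = p := by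
  intro n
  induction n with
  | zero =>
    intro p s hp _
    refine ⟨0, ?_⟩
    rw [Polynomial.map_zero]
    ext m
    rw [hp m (Nat.zero_le m), Polynomial.coeff_zero]
  | succ n ih =>
    intro p s hp hs
    have hdeg : p.natDegree ≤ n :=
      Polynomial.natDegree_le_iff_coeff_eq_zero.2 (fun N hN => hp N hN)
    obtain ⟨a, ha⟩ : ∃ a, a = s.coeff ((h : ℤ) * (-(n : ℤ))) := ⟨_, rfl⟩
    have hpa : p.coeff n = f a := by
      rw [← Fermat.Agent.S28.Build.coeff_evAt_V_J h p n hdeg, hs, coeffMap_coeff, ha]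
    obtain ⟨p₁, hp₁⟩ := ih (p - C (f a) * X ^ n)
      (s - HahnSeries.C a * (qExpand A h (jqModC A)) ^ n) (by
        intro m hm
        rw [Polynomial.coeff_sub, Polynomial.coeff_C_mul, Polynomial.coeff_X_pow]
        rcases Nat.eq_or_lt_of_le hm with rfl | hlt
        · rw [if_pos rfl, mul_one, hpa, sub_self]
        · rw [if_neg (by omega), mul_zero, sub_zero, hp m hlt]) (by
        rw [map_sub, map_sub, map_mul, map_mul, map_pow, map_pow, hs,
          Fermat.Agent.S28.Build.evAt_C, Fermat.Agent.S28.Build.evAt_X,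
          Fermat.Agent.S28.Build.coeffMap_C, coeffMap_qExpand, Fermat.Agent.S28.Build.coeffMap_J])
    refine ⟨p₁ + C a * X ^ n, ?_⟩
    rw [Polynomial.map_add, hp₁, Polynomial.map_mul, Polynomial.map_C, Polynomial.map_pow,
      Polynomial.map_X, sub_add_cancel]

theorem exists_poly_lift {A B : Type*} [CommRing A] [CommRing B] (f : A →+* B)
    (hf : Function.Injective f) (h : ℕ) [NeZero h] (p : B[X]) (s : LaurentSeries A)
    (hp : evAt (qExpand B h (jqModC B)) p = coeffMap f s) :
    ∃ p' : A[X], p'.map f = p ∧ evAt (qExpand A h (jqModC A)) p' = s := by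
  obtain ⟨p', hp'⟩ := FD_aux f h (p.natDegree + 1) p s
    (fun m hm => Polynomial.coeff_eq_zero_of_natDegree_lt hm) hp
  refine ⟨p', hp', ?_⟩
  apply Fermat.Agent.S28.Build.coeffMap_injective f hf
  rw [Fermat.Agent.S28.Build.coeffMap_evAt, hp', coeffMap_qExpand, Fermat.Agent.S28.Build.coeffMap_J, hp]

theorem exists_Phi_lift {A B : Type*} [CommRing A] [CommRing B] (f : A →+* B)
    (hf : Function.Injective f) (h : ℕ) [NeZero h] {T : Type*} [Fintype T]
    (Y : T → LaurentSeries A) (Φ : B[X][X])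
    (hΦ : Φ.map (evAt (qExpand B h (jqModC B))) = ∏ t, (X - C (coeffMap f (Y t)))) :
    ∃ Φ' : A[X][X], Φ'.Monic ∧ Φ'.map (evAt (qExpand A h (jqModC A))) = ∏ t, (X - C (Y t)) := by
  have hP : (∏ t, (X - C (Y t)) : (LaurentSeries A)[X]) ∈
      Polynomial.lifts (evAt (qExpand A h (jqModC A))) := by
    rw [Polynomial.lifts_iff_coeff_lifts]
    intro k
    obtain ⟨p', -, hp'⟩ := exists_poly_lift f hf h (Φ.coeff k)
      ((∏ t, (X - C (Y t)) : (LaurentSeries A)[X]).coeff k) (by
        rw [← Polynomial.coeff_map, hΦ, ← Polynomial.coeff_map, Polynomial.map_prod]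
        simp)
    exact ⟨p', hp'⟩
  obtain ⟨Φ', hΦ'⟩ := (Polynomial.mem_lifts _).1 hP
  refine ⟨Φ', Polynomial.monic_of_injective (Fermat.Agent.S28.Build.evAt_V_J_injective h) ?_, hΦ'⟩
  rw [hΦ']
  exact monic_prod_of_monic _ _ (fun t _ => monic_X_sub_C _)

end Fermat.Agent.S48.C1.Inst
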