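import Fermat.Agent.S48.C1.Inst.Core
import Fermat.Agent.S48.C1.Inst.FD
import Fermat.Agent.S48.C1.Model

/-!
# S48 / C1 / Inst : analytic models of a function field `ℚ̄(j, g_i) ⊆ ℚ̄((q))`

`AnModel I V h`: generators `gS i ∈ ℚ̄((q))`; a family of "conjugate tuples" `tH v : I → (ℍ → ℂ)`, `v ∈ V`, of holomorphic functions, `h`-periodic and
meromorphic at `i∞` (`S24.HolCusp h`), with expansions `tS v i ∈ ℚ̄((x))`, `x = q^{1/h}`; the tuple `v₀` is the tuple of generators; `SL₂(ℤ)` permutes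
the tuples transitively.

TASKS S48/C1-Inst-Perm (`exists_perm`, `quot`), S48/C1-Inst-Joint (`joint`), S48/C1-Inst-Cusp (`hasCuspPolyQ`).

* `exists_perm` : for `γ` choose `π v := v'` (`m.act`).  `π` is injective: `tH (π v₁) = tH (π v₂)` ⇒ `tH v₁ i (γ • τ) = tH v₂ i (γ • τ)` for all `τ`; replace `τ` by
  `γ⁻¹ • τ` ⇒ `v₁ = v₂` by `hinj`.  `Finite.injective_iff_bijective`, `Equiv.ofBijective`.
* `quot` : `V' := Set.range m.tH`, `tH' t := t.1`, `tS' t := m.tS (Classical.choose t.2)`, `v₀' := ⟨m.tH m.v₀, _⟩`.  For `base` use: `tH v = tH v'` ⇒ `tS v i = tS v' i`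
  (`lau`, injectivity of `coeffMap iotaC`).
* `joint` : `core` for `θ v := ∑ i, iotaC (c i) • tH v i` (in `HolCusp h`: `Subalgebra.sum_mem`, `smul_mem`), `laurent h (θ v) = coeffMap iotaC (∑ i, C (c i) * tS v i)`
  (`map_sum`, `map_smul`/`AlgHom.commutes`, `m.lau`, `S28.Build.coeffMap_C`), then `exists_Phi_lift iotaC`.
* `hasCuspPolyQ` : `core` for `θ v := tH v i`, then `exists_Phi_lift (iotaC.comp A.subtype)` (`coeffMap_coeffMap`), index `v₀` (`m.base`).
-/

set_option autoImplicit false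

open Polynomial ModularCurve UpperHalfPlane
open scoped MatrixGroups IntermediateField

namespace Fermat.Agent.S48.C1.Inst

noncomputable section

open Fermat.Agent.S28 (evAt)
open Fermat.Agent.S24 (HolCusp laurent iotaC)
open Fermat.Agent.ES (Qb)

/-- An analytic model. -/
structure AnModel (I V : Type) (h : ℕ) [NeZero h] where
  /-- the generators, series in `q` -/
  gS : I → LaurentSeries Qb
  /-- the conjugate tuples, as functions -/
  tH : V → I → ℍ → ℂ
  /-- the conjugate tuples, as series in `x = q^{1/h}` -/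
  tS : V → I → LaurentSeries Qb
  v₀ : V
  hol : ∀ v i, tH v i ∈ HolCusp h
  lau : ∀ v i, laurent h ⟨tH v i, hol v i⟩ = coeffMap iotaC (tS v i)
  base : ∀ i, tS v₀ i = qExpand Qb h (gS i)
  act : ∀ (γ : SL(2, ℤ)) (v : V), ∃ v', ∀ i τ, tH v i (γ • τ) = tH v' i τ
  trans : ∀ v, ∃ γ : SL(2, ℤ), ∀ i τ, tH v i τ = tH v₀ i (γ • τ)

namespace AnModel

variable {I V : Type} {h : ℕ} [NeZero h] (m : AnModel I V h)

/-- different indices give different tuples. -/
def Inj : Prop := ∀ v v', (∀ i, m.tH v i = m.tH v' i) → v = v'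

/-- the set of generators. -/
abbrev G : Set (LaurentSeries Qb) := Set.range m.gS

theorem exists_perm [Finite V] (hinj : m.Inj) (γ : SL(2, ℤ)) :
    ∃ π : V ≃ V, ∀ v i τ, m.tH v i (γ • τ) = m.tH (π v) i τ := by
  choose π hπ using m.act γ
  have hπinj : Function.Injective π := by
    intro v₁ v₂ h12
    apply hinj
    intro i
    funext τ
    have h1 := hπ v₁ i (γ⁻¹ • τ)
    have h2 := hπ v₂ i (γ⁻¹ • τ)
    rw [smul_inv_smul] at h1 h2
    rw [h1, h2, h12]
  exact ⟨Equiv.ofBijective π (Finite.injective_iff_bijective.1 hπinj), fun v i τ => hπ v i τ⟩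

/-- equal tuples of functions have equal expansions. -/
theorem tS_eq_of_tH_eq {v v' : V} (hv : m.tH v = m.tH v') : m.tS v = m.tS v' := by
  funext i
  apply Fermat.Agent.S24.QDict.coeffMap_iotaC_injective
  rw [← m.lau v i, ← m.lau v' i]
  congr 1
  exact Subtype.ext (congrFun hv i)

/-- pass to the set of distinct tuples. -/
theorem quot [Finite V] : ∃ (V' : Type) (_ : Finite V') (m' : AnModel I V' h), m'.Inj ∧ m'.gS = m.gS ∧
    ∀ v', ∃ v, m'.tH v' = m.tH v ∧ m'.tS v' = m.tS v := by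
  classical
  let rep : Set.range m.tH → V := fun t => Classical.choose t.2
  have hrep : ∀ t : Set.range m.tH, m.tH (rep t) = t.1 := fun t => Classical.choose_spec t.2
  have hhol : ∀ (t : Set.range m.tH) (i : I), t.1 i ∈ HolCusp h := fun t i => by
    rw [← hrep t]
    exact m.hol _ _
  let m' : AnModel I (Set.range m.tH) h :=
    { gS := m.gS
      tH := fun t => t.1
      tS := fun t => m.tS (rep t)
      v₀ := ⟨m.tH m.v₀, Set.mem_range_self m.v₀⟩
      hol := hhol
      lau := fun t i => by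
        rw [← m.lau (rep t) i]
        congr 1
        exact Subtype.ext (congrFun (hrep t).symm i)
      base := fun i => by
        rw [← m.base i]
        exact congrFun (m.tS_eq_of_tH_eq (hrep ⟨m.tH m.v₀, Set.mem_range_self m.v₀⟩)) i
      act := fun γ t => by
        obtain ⟨v', hv'⟩ := m.act γ (rep t)
        refine ⟨⟨m.tH v', Set.mem_range_self v'⟩, fun i τ => ?_⟩
        exact (congrFun (congrFun (hrep t).symm i) (γ • τ)).trans (hv' i τ)
      trans := fun t => by
        obtain ⟨γ, hγ⟩ := m.trans (rep t)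
        refine ⟨γ, fun i τ => ?_⟩
        exact (congrFun (congrFun (hrep t).symm i) τ).trans (hγ i τ) }
  refine ⟨Set.range m.tH, inferInstance, m', ?_, rfl, fun t => ⟨rep t, (hrep t).symm, rfl⟩⟩
  intro t t' htt
  exact Subtype.ext (funext htt)

/-- the joint cusp polynomials. -/
theorem joint [Fintype I] [Fintype V] (hinj : m.Inj) (c : I → Qb) :
    ∃ Φ : Qb[X][X], Φ.Monic ∧ Φ.map (evAt (qExpand Qb h (jqModC Qb)))
      = ∏ v, (X - C (∑ i, HahnSeries.C (c i) * m.tS v i)) := by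
  classical
  let Θ : V → HolCusp h := fun v => ∑ i, iotaC (c i) • (⟨m.tH v i, m.hol v i⟩ : HolCusp h)
  have hΘ : ∀ v τ, (Θ v : ℍ → ℂ) τ = ∑ i, iotaC (c i) * m.tH v i τ := by
    intro v τ
    simp only [Θ, AddSubmonoidClass.coe_finsetSum, Finset.sum_apply]
    rfl
  have hlau : ∀ v, laurent h ⟨(Θ v : ℍ → ℂ), (Θ v).2⟩
      = coeffMap iotaC (∑ i, HahnSeries.C (c i) * m.tS v i) := by
    intro v
    have h1 : (⟨(Θ v : ℍ → ℂ), (Θ v).2⟩ : HolCusp h) = Θ v := rfl
    rw [h1, map_sum, map_sum]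
    refine Finset.sum_congr rfl fun i _ => ?_
    rw [Algebra.smul_def, map_mul, AlgHom.commutes, m.lau, map_mul,
      Fermat.Agent.S28.Build.coeffMap_C, Fermat.Agent.S28.C_eq_algebraMap]
  obtain ⟨Φ, hΦ⟩ := core h (fun v => (Θ v : ℍ → ℂ)) (fun v => (Θ v).2) (by
    intro γ
    obtain ⟨π, hπ⟩ := m.exists_perm hinj γ
    refine ⟨π, fun v τ => ?_⟩
    rw [hΘ, hΘ]
    exact Finset.sum_congr rfl fun i _ => by rw [hπ])
  refine exists_Phi_lift iotaC iotaC.injective h
    (fun v => ∑ i, HahnSeries.C (c i) * m.tS v i) Φ ?_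
  rw [hΦ]
  exact Finset.prod_congr rfl fun v _ => by rw [hlau]

/-- the cusp polynomial of a generator over a valuation ring of `ℚ̄`. -/
theorem hasCuspPolyQ [Fintype V] (hinj : m.Inj) (A : ValuationSubring Qb) (i : I)
    (Y : V → LaurentSeries A) (hY : ∀ v, coeffMap A.subtype (Y v) = m.tS v i)
    (L : IntermediateField ℚ Qb) (hL : FiniteDimensional ℚ L) (hLc : ∀ v n, (m.tS v i).coeff n ∈ L)
    (hsep : ∀ v v', coeffMap (IsLocalRing.residue A) (Y v) = coeffMap (IsLocalRing.residue A) (Y v') →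
      Y v = Y v') :
    HasCuspPolyQ A h (qExpand Qb h (m.gS i)) := by
  obtain ⟨Φ, hΦ⟩ := core h (fun v => m.tH v i) (fun v => m.hol v i) (fun γ => by
    obtain ⟨π, hπ⟩ := m.exists_perm hinj γ
    exact ⟨π, fun v τ => hπ v i τ⟩)
  have hΦ' : Φ.map (evAt (qExpand ℂ h (jqModC ℂ)))
      = ∏ v, (X - C (coeffMap (iotaC.comp A.subtype) (Y v))) := by
    rw [hΦ]
    refine Finset.prod_congr rfl fun v _ => ?_
    rw [m.lau, ← hY v, coeffMap_coeffMap]
  obtain ⟨Φ', hmon, hΦ''⟩ := exists_Phi_lift (iotaC.comp A.subtype)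
    (iotaC.injective.comp Subtype.val_injective) h Y Φ hΦ'
  refine ⟨Φ', V, inferInstance, Y, L, hL, ?_, hmon, hΦ'', ⟨m.v₀, by rw [hY, m.base]⟩, hsep⟩
  intro v n
  have h1 := hLc v n
  rw [← hY v, coeffMap_coeff] at h1
  exact h1

end AnModel

end

end Fermat.Agent.S48.C1.Inst
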