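import Fermat.Agent.S17.F.PolyJ
import Fermat.Agent.S48.EIS.Bridge
import Fermat.Agent.S28.FormalBasic

/-!
# S48 / C1 / Inst : CORE.  A finite family of functions permuted by `SL₂(ℤ)` is the set of roots of a polynomial over `ℂ[j]`

TASKS S48/C1-Inst-CoreA (`mem_HolCusp_one`, `laurent_jfun`, `laurent_invariant`), S48/C1-Inst-CoreB (`core`).

* `mem_HolCusp_one` : `f ∈ HolCusp h` and `f(τ + 1) = f(τ)` ⇒ `f ∈ HolCusp 1`.  (`HolCusp` = `MDiff ∧ Periodic (f ∘ ofComplex) h ∧ ∃ m, bounded (f * qh h ^ m)`;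
  `qh 1 τ = qh h τ ^ h` (`S24.qh_pow`), so `f * qh 1 ^ m = (f * qh h ^ m) * qh h ^ (m (h-1))` is bounded: `S24.Laurent.bdd_qh_pow`;
  periodicity: `S24.Laurent.periodic_of_vadd`.)
* `laurent_jfun` : `S24.laurent_jd 1`, `S24.QDict.coeffMap_jSer`, `S24.Packages.jd_one`, `qExpand_one_apply`.
* `laurent_invariant` : Lemma J (`S17.F.mem_adjoin_jfun`): `f = aeval jfun p` (`Algebra.adjoin_singleton_eq_range_aeval`), so
  `laurent 1 f = aeval (jqModC ℂ) p` (`laurent 1` is an algebra hom; `Polynomial.aeval_algHom_apply`), and `EIS.laurent_of_one`: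
  `laurent h f = qExpand ℂ h (laurent 1 f) = evAt (qExpand ℂ h (jqModC ℂ)) p` (`S28.Build.V_evAt`; `evAt x p = eval₂ HahnSeries.C x p`,
  `algebraMap ℂ ℂ((t)) = HahnSeries.C`: `S24.Packages.algebraMap_C`).
* `core` : `P := ∏ t, (X - C ⟨θ t, hθ t⟩) ∈ (HolCusp h)[X]`.  For `γ`, the ring hom `f ↦ f ∘ γ` of `ℍ → ℂ` maps
  `P.map (HolCusp h).val = ∏ (X - C (θ t))` to `∏ (X - C (θ (π t)))`, which is the same product (`Equiv.prod_comp`).  So every coefficient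
  `c_k` of `P` is `SL₂(ℤ)`-invariant; `laurent_invariant` gives `p_k`; `Φ := ∑ k ∈ range (P.natDegree + 1), C (p_k) * X^k`
  (compare coefficients; `P.map (laurent h) = ∏ (X - C (laurent h ⟨θ t, _⟩))`, `Polynomial.map_prod`).
-/

set_option autoImplicit false

open Polynomial ModularCurve UpperHalfPlane
open scoped MatrixGroups

namespace Fermat.Agent.S48.C1.Inst

open Fermat.Agent.S28 (evAt)
open Fermat.Agent.S24

theorem mem_HolCusp_one (h : ℕ) [NeZero h] {f : ℍ → ℂ} (hf : f ∈ HolCusp h)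
    (h1 : ∀ τ : ℍ, f ((1 : ℝ) +ᵥ τ) = f τ) : f ∈ HolCusp 1 := by
  obtain ⟨hd, -, m, hm⟩ := hf
  refine ⟨hd, ?_, m, ?_⟩
  · have h2 := Laurent.periodic_of_vadd (h := (1 : ℝ)) h1
    rw [Nat.cast_one]
    exact h2
  · have hb := hm.mul (Laurent.bdd_qh_pow h (m * (h - 1)))
    have he : (fun τ => f τ * qh 1 τ ^ m) =
        (fun τ => f τ * qh h τ ^ m) * fun τ => qh h τ ^ (m * (h - 1)) := by
      funext τ
      simp only [Pi.mul_apply]
      rw [← Cusp.qh_pow h τ, ← pow_mul, mul_assoc, ← pow_add]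
      congr 2
      obtain ⟨k, hk⟩ : ∃ k, h = k + 1 := ⟨h - 1, (Nat.succ_pred_eq_of_ne_zero (NeZero.ne h)).symm⟩
      rw [hk, Nat.add_sub_cancel]
      ring
    rw [he]
    exact hb

theorem laurent_jfun : laurent 1 ⟨jfun, jfun_mem_HolCusp 1⟩ = jqModC ℂ := by
  have h := laurent_jd 1
  rw [QDict.coeffMap_jSer, qExpand_one_apply] at h
  have hjd : jd 1 = jfun := by
    funext τ
    rw [jd]
    congr 1
    rw [UpperHalfPlane.ext_iff]
    simp [mulH]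
  have e : (⟨jfun, jfun_mem_HolCusp 1⟩ : HolCusp 1) = ⟨jd 1, jd_mem_HolCusp_one 1⟩ :=
    Subtype.ext hjd.symm
  rw [e]
  exact h

theorem laurent_jfun' (h : ℕ) [NeZero h] :
    laurent h ⟨jfun, jfun_mem_HolCusp h⟩ = qExpand ℂ h (jqModC ℂ) := by
  have h1 := Fermat.Agent.S48.EIS.laurent_of_one h ⟨jfun, jfun_mem_HolCusp 1⟩
  rw [laurent_jfun] at h1
  exact h1

theorem laurent_invariant (h : ℕ) [NeZero h] {f : ℍ → ℂ} (hf : f ∈ HolCusp h)
    (hinv : ∀ (γ : SL(2, ℤ)) (τ : ℍ), f (γ • τ) = f τ) :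
    ∃ p : ℂ[X], laurent h ⟨f, hf⟩ = evAt (qExpand ℂ h (jqModC ℂ)) p := by
  have hf1 : f ∈ HolCusp 1 := mem_HolCusp_one h hf fun τ => by
    rw [← UpperHalfPlane.modular_T_smul]
    exact hinv _ τ
  have hmem := Fermat.Agent.S17.F.mem_adjoin_jfun hf1 hinv
  rw [Algebra.adjoin_singleton_eq_range_aeval] at hmem
  obtain ⟨p, hp⟩ := hmem
  refine ⟨p, ?_⟩
  have h1 : (⟨f, hf1⟩ : HolCusp 1) = aeval (⟨jfun, jfun_mem_HolCusp 1⟩ : HolCusp 1) p := by
    apply Subtype.ext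
    have h2 := Polynomial.aeval_algHom_apply (HolCusp 1).val
      (⟨jfun, jfun_mem_HolCusp 1⟩ : HolCusp 1) p
    exact hp.symm.trans h2
  have h3 : laurent 1 ⟨f, hf1⟩ = evAt (jqModC ℂ) p := by
    rw [h1, ← Polynomial.aeval_algHom_apply, laurent_jfun, Fermat.Agent.S28.Build.evAt_apply,
      Polynomial.aeval_def]
    congr 1
    refine RingHom.ext fun r => ?_
    rw [HahnSeries.algebraMap_apply', PowerSeries.algebraMap_apply]
    simp
  have h4 := Fermat.Agent.S48.EIS.laurent_of_one h ⟨f, hf1⟩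
  rw [h3, Fermat.Agent.S28.Build.V_evAt] at h4
  exact h4

/-- `f ↦ f ∘ γ` as a ring endomorphism of `ℍ → ℂ`. -/
noncomputable def coreComp (γ : SL(2, ℤ)) : (ℍ → ℂ) →+* (ℍ → ℂ) :=
  RingHom.pi (fun τ => Pi.evalRingHom (fun _ : ℍ => ℂ) (γ • τ))

theorem coreComp_apply (γ : SL(2, ℤ)) (f : ℍ → ℂ) (τ : ℍ) : coreComp γ f τ = f (γ • τ) := rfl

/-- **CORE.** -/
theorem core {T : Type*} [Fintype T] (h : ℕ) [NeZero h] (θ : T → ℍ → ℂ)
    (hθ : ∀ t, θ t ∈ HolCusp h)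
    (hact : ∀ γ : SL(2, ℤ), ∃ π : T ≃ T, ∀ t τ, θ t (γ • τ) = θ (π t) τ) :
    ∃ Φ : ℂ[X][X], Φ.map (evAt (qExpand ℂ h (jqModC ℂ)))
      = ∏ t, (X - C (laurent h ⟨θ t, hθ t⟩)) := by
  classical
  set P : (HolCusp h)[X] := ∏ t, (X - C (⟨θ t, hθ t⟩ : HolCusp h)) with hP
  set P0 : (ℍ → ℂ)[X] := ∏ t, (X - C (θ t)) with hP0
  have hPP0 : P.map ((HolCusp h).val : HolCusp h →+* (ℍ → ℂ)) = P0 := by
    rw [hP, hP0, Polynomial.map_prod]
    refine Finset.prod_congr rfl fun t _ => ?_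
    rw [Polynomial.map_sub, Polynomial.map_X, Polynomial.map_C]
    rfl
  have hinvP0 : ∀ γ : SL(2, ℤ), P0.map (coreComp γ) = P0 := by
    intro γ
    obtain ⟨π, hπ⟩ := hact γ
    rw [hP0, Polynomial.map_prod, ← Equiv.prod_comp π (fun t => (X - C (θ t) : (ℍ → ℂ)[X]))]
    refine Finset.prod_congr rfl fun t _ => ?_
    rw [Polynomial.map_sub, Polynomial.map_X, Polynomial.map_C]
    congr 2
    funext τ
    rw [coreComp_apply]
    exact hπ t τ
  have hcoeff : ∀ (k : ℕ) (γ : SL(2, ℤ)) (τ : ℍ),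
      ((P.coeff k : HolCusp h) : ℍ → ℂ) (γ • τ) = ((P.coeff k : HolCusp h) : ℍ → ℂ) τ := by
    intro k γ τ
    have h1 : ((P.coeff k : HolCusp h) : ℍ → ℂ) = P0.coeff k := by
      rw [← hPP0, Polynomial.coeff_map]
      rfl
    rw [h1, ← coreComp_apply γ (P0.coeff k) τ, ← Polynomial.coeff_map, hinvP0 γ]
  choose p hp using fun k : ℕ =>
    laurent_invariant h (P.coeff k).2 (hcoeff k)
  refine ⟨∑ k ∈ Finset.range (P.natDegree + 1), C (p k) * X ^ k, ?_⟩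
  have hmap : P.map ((laurent h : HolCusp h →ₐ[ℂ] LaurentSeries ℂ) : HolCusp h →+* LaurentSeries ℂ)
      = ∏ t, (X - C (laurent h ⟨θ t, hθ t⟩)) := by
    rw [hP, Polynomial.map_prod]
    refine Finset.prod_congr rfl fun t _ => ?_
    rw [Polynomial.map_sub, Polynomial.map_X, Polynomial.map_C]
    rfl
  rw [← hmap, Polynomial.map_sum]
  conv_rhs => rw [P.as_sum_range_C_mul_X_pow, Polynomial.map_sum]
  refine Finset.sum_congr rfl fun k _ => ?_
  rw [Polynomial.map_mul, Polynomial.map_mul, Polynomial.map_pow, Polynomial.map_pow,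
    Polynomial.map_X, Polynomial.map_X, Polynomial.map_C, Polynomial.map_C, ← hp k]
  rfl

end Fermat.Agent.S48.C1.Inst
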