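import Fermat.Agent.S48.C1.Maps

/-!
# S48 / C1 / Inst : `[ℚ̄(j, g_i) : ℚ̄(j)] ≤ #V` from the joint cusp polynomials   (pure field theory)

TASKS S48/C1-Inst-Tuple (`prod_eq_zero`, `exists_tuple`), S48/C1-Inst-DegLe (`finrank_le_of_joint`).

Setting: `g_i = gS i ∈ ℚ̄((q))`, `F = F0 ℚ̄ (range gS) = ℚ̄(j, g_i)`, tuples `tS v : I → ℚ̄((x))`, `q = x^h`, `tS v₀ i = V_h (g_i)`, and for every
`c : I → ℚ̄` a polynomial `Φ_c ∈ ℚ̄[X][Y]` with `Φ_c(j(x^h), Y) = ∏_v (Y - ∑_i c_i tS v i)`.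

* `prod_eq_zero` : let `ε : F → Ω` be a ring hom with `ε = inc ∘ V_h` on `ℚ̄` and on `j`.  `y_c := ∑ c_i g_i ∈ F`.  `V_h y_c = ∑ c_i tS v₀ i` is a root of `Φ_c(j(x^h), Y)`;
  `evAt (V_h J) p = V_h (evAt J p)` (`S28.Build.V_evAt`) and `V_h` is injective (`qExpand_injective`), so `Φ_c(j, y_c) = 0` in `ℚ̄((q))`, i.e. in `F`:
  `eval₂ φ₀ y_c Φ_c = 0`, `φ₀ := (aeval (jF0 ..) : ℚ̄[X] →ₐ F)`.  Apply `ε` (`Polynomial.hom_eval₂`); `ε ∘ φ₀ = inc ∘ evAt (V_h J)` (`Polynomial.ringHom_ext`);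
  so `0 = eval (ε y_c) ((Φ_c.map (evAt (V_h J))).map inc) = ∏_v (ε y_c - inc (∑ c_i tS v i)) = ∏_v ∑_i inc (C c_i) (ε g_i - inc (tS v i))`.
* `exists_tuple` : suppose for every `v` there is `i` with `δ v i := ε g_i - inc (tS v i) ≠ 0`.  Fix `e : I ≃ Fin n`.  `P_v := ∑_i C (δ v i) X^(e i) ∈ Ω[X]` is nonzero, so
  `∏_v P_v ≠ 0` has finitely many roots; choose `N : ℕ` with `(∏ P_v).eval (N : Ω) ≠ 0` (`Ω` has characteristic `0` because `ℚ̄ → Ω`;
  `Polynomial.eq_zero_of_infinite_isRoot`, `Nat.cast_injective`); `c_i := N^(e i)` contradicts `prod_eq_zero`.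
* `finrank_le_of_joint` : `Ω := AlgebraicClosure ℚ̄((x))`, `Algebra ℚ̄(j) Ω := (inc ∘ V_h ∘ coe).toAlgebra`; `AlgHom.card` : `#(F →ₐ[ℚ̄(j)] Ω) = finrank` (char `0`);
  `ε ↦ v` (from `exists_tuple`) is injective since `ε` is determined by its values on `ℚ̄(j)` and the `g_i`
  (`F = ℚ̄(j)(g_i)`: e.g. equaliser subfield + `IntermediateField.adjoin_induction` on `x.2`, as in `C1/Deg.lean : ringHom_eq_of_beta`).
-/

set_option autoImplicit false

open Polynomial ModularCurve
open scoped IntermediateField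

namespace Fermat.Agent.S48.C1.Inst

noncomputable section

open Fermat.Agent.S28 (evAt)
open Fermat.Agent.ES (Qb)

variable {I V : Type} [Fintype I] [Fintype V] (h : ℕ) [NeZero h] (gS : I → LaurentSeries Qb)
  (tS : V → I → LaurentSeries Qb) (v₀ : V)

/-- the generators as elements of `F`. -/
def gen (i : I) : F0 Qb (Set.range gS) :=
  ⟨gS i, IntermediateField.subset_adjoin _ _ (Set.mem_insert_of_mem _ ⟨i, rfl⟩)⟩

variable {gS tS v₀}

theorem Tuple_algebraMap_eq_C (a : Qb) :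
    algebraMap Qb (LaurentSeries Qb) a = HahnSeries.C a := by
  have h1 : algebraMap Qb (PowerSeries Qb) a = PowerSeries.C a := by
    simp
  rw [HahnSeries.algebraMap_apply', h1, HahnSeries.ofPowerSeries_C]

theorem prod_eq_zero (base : ∀ i, tS v₀ i = qExpand Qb h (gS i)) (c : I → Qb) (Φ : Qb[X][X])
    (hΦ : Φ.map (evAt (qExpand Qb h (jqModC Qb))) = ∏ v, (X - C (∑ i, HahnSeries.C (c i) * tS v i)))
    {Ω : Type*} [Field Ω] (inc : LaurentSeries Qb →+* Ω) (ε : F0 Qb (Set.range gS) →+* Ω)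
    (hεc : ∀ a : Qb, ε (algebraMap Qb _ a) = inc (HahnSeries.C a))
    (hεj : ε (jF0 Qb (Set.range gS)) = inc (qExpand Qb h (jqModC Qb))) :
    ∏ v, ∑ i, inc (HahnSeries.C (c i)) * (ε (gen gS i) - inc (tS v i)) = 0 := by
  classical
  let y : F0 Qb (Set.range gS) := ∑ i, algebraMap Qb (F0 Qb (Set.range gS)) (c i) * gen gS i
  let θ : Qb[X] →+* F0 Qb (Set.range gS) :=
    eval₂RingHom (algebraMap Qb (F0 Qb (Set.range gS))) (jF0 Qb (Set.range gS))
  let κ : F0 Qb (Set.range gS) →+* LaurentSeries Qb :=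
    (qExpand Qb h).comp ((F0 Qb (Set.range gS)).val : F0 Qb (Set.range gS) →+* LaurentSeries Qb)
  have hκinj : Function.Injective κ := (qExpand_injective h).comp Subtype.val_injective
  have hκc : ∀ a : Qb, κ (algebraMap Qb (F0 Qb (Set.range gS)) a) = HahnSeries.C a := by
    intro a
    show qExpand Qb h (algebraMap Qb (LaurentSeries Qb) a) = _
    rw [Tuple_algebraMap_eq_C, qExpand_C]
  have hκθ : κ.comp θ = evAt (qExpand Qb h (jqModC Qb)) := by
    refine Polynomial.ringHom_ext (fun a => ?_) ?_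
    · simp only [RingHom.comp_apply, θ, coe_eval₂RingHom, eval₂_C, Fermat.Agent.S28.Build.evAt_C]
      exact hκc a
    · simp only [RingHom.comp_apply, θ, coe_eval₂RingHom, eval₂_X, Fermat.Agent.S28.Build.evAt_X]
      rfl
  have hεθ : ε.comp θ = inc.comp (evAt (qExpand Qb h (jqModC Qb))) := by
    refine Polynomial.ringHom_ext (fun a => ?_) ?_
    · simp only [RingHom.comp_apply, θ, coe_eval₂RingHom, eval₂_C, Fermat.Agent.S28.Build.evAt_C]
      exact hεc a
    · simp only [RingHom.comp_apply, θ, coe_eval₂RingHom, eval₂_X, Fermat.Agent.S28.Build.evAt_X]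
      exact hεj
  have hκy : κ y = ∑ i, HahnSeries.C (c i) * tS v₀ i := by
    simp only [y, map_sum, map_mul, hκc, base]
    rfl
  have h0 : (Φ.map θ).eval y = 0 := by
    apply hκinj
    rw [map_zero, ← Polynomial.eval_map_apply, Polynomial.map_map, hκθ, hΦ, hκy,
      Polynomial.eval_prod]
    refine Finset.prod_eq_zero (Finset.mem_univ v₀) ?_
    rw [Polynomial.eval_sub, Polynomial.eval_X, Polynomial.eval_C, sub_self]
  have h1 := congrArg ε h0
  rw [map_zero, ← Polynomial.eval_map_apply, Polynomial.map_map, hεθ, ← Polynomial.map_map, hΦ,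
    Polynomial.map_prod, Polynomial.eval_prod] at h1
  rw [← h1]
  refine Finset.prod_congr rfl fun v _ => ?_
  rw [Polynomial.map_sub, Polynomial.map_X, Polynomial.map_C, Polynomial.eval_sub,
    Polynomial.eval_X, Polynomial.eval_C]
  simp only [y, map_sum, map_mul, hεc, mul_sub, Finset.sum_sub_distrib]

theorem exists_tuple (base : ∀ i, tS v₀ i = qExpand Qb h (gS i))
    (hjoint : ∀ c : I → Qb, ∃ Φ : Qb[X][X], Φ.map (evAt (qExpand Qb h (jqModC Qb)))
      = ∏ v, (X - C (∑ i, HahnSeries.C (c i) * tS v i)))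
    {Ω : Type*} [Field Ω] (inc : LaurentSeries Qb →+* Ω) (ε : F0 Qb (Set.range gS) →+* Ω)
    (hεc : ∀ a : Qb, ε (algebraMap Qb _ a) = inc (HahnSeries.C a))
    (hεj : ε (jF0 Qb (Set.range gS)) = inc (qExpand Qb h (jqModC Qb))) :
    ∃ v, ∀ i, ε (gen gS i) = inc (tS v i) := by
  classical
  by_contra hcon
  simp only [not_exists, not_forall] at hcon
  let e : I ≃ Fin (Fintype.card I) := Fintype.equivFin I
  let P : V → Polynomial Ω := fun v => ∑ i, C (ε (gen gS i) - inc (tS v i)) * X ^ (e i : ℕ)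
  have hP : ∀ v, P v ≠ 0 := by
    intro v hv
    obtain ⟨i, hi⟩ := hcon v
    have h1 := congrArg (fun p : Polynomial Ω => p.coeff (e i : ℕ)) hv
    simp only [P, Polynomial.finsetSum_coeff, Polynomial.coeff_C_mul, Polynomial.coeff_X_pow,
      Polynomial.coeff_zero] at h1
    rw [Finset.sum_eq_single i] at h1
    · simp only [if_true, mul_one] at h1
      exact hi (sub_eq_zero.mp h1)
    · intro i' _ hne
      rw [if_neg, mul_zero]
      intro h2
      exact hne (e.injective (Fin.ext h2.symm))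
    · intro h2
      exact absurd (Finset.mem_univ i) h2
  have hPP : ∏ v, P v ≠ 0 := Finset.prod_ne_zero_iff.mpr fun v _ => hP v
  have : CharZero Ω := by
    have : Algebra ℚ Ω := ((inc.comp HahnSeries.C).comp (algebraMap ℚ Qb)).toAlgebra
    exact algebraRat.charZero Ω
  obtain ⟨N, hN⟩ : ∃ N : ℕ, (∏ v, P v).eval (N : Ω) ≠ 0 := by
    by_contra hall
    simp only [not_exists, not_not] at hall
    refine hPP (Polynomial.eq_zero_of_infinite_isRoot _ ?_)
    refine Set.Infinite.mono (s := Set.range (fun N : ℕ => (N : Ω))) ?_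
      (Set.infinite_range_of_injective Nat.cast_injective)
    rintro _ ⟨N, rfl⟩
    exact hall N
  obtain ⟨Φ, hΦ⟩ := hjoint (fun i => (N : Qb) ^ (e i : ℕ))
  have h0 := prod_eq_zero h base (fun i => (N : Qb) ^ (e i : ℕ)) Φ hΦ inc ε hεc hεj
  apply hN
  rw [Polynomial.eval_prod, ← h0]
  refine Finset.prod_congr rfl fun v _ => ?_
  simp only [P, Polynomial.eval_finsetSum, Polynomial.eval_mul, Polynomial.eval_C,
    Polynomial.eval_pow, Polynomial.eval_X, map_pow, map_natCast]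
  exact Finset.sum_congr rfl fun i _ => mul_comm _ _

theorem finrank_le_of_joint (base : ∀ i, tS v₀ i = qExpand Qb h (gS i))
    (hjoint : ∀ c : I → Qb, ∃ Φ : Qb[X][X], Φ.map (evAt (qExpand Qb h (jqModC Qb)))
      = ∏ v, (X - C (∑ i, HahnSeries.C (c i) * tS v i)))
    [FiniteDimensional Qb⟮jF0 Qb (Set.range gS)⟯ (F0 Qb (Set.range gS))] :
    Module.finrank Qb⟮jF0 Qb (Set.range gS)⟯ (F0 Qb (Set.range gS)) ≤ Fintype.card V := by
  classical
  let F := F0 Qb (Set.range gS)
  let K' := Qb⟮jF0 Qb (Set.range gS)⟯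
  let Ω := AlgebraicClosure (LaurentSeries Qb)
  let inc : LaurentSeries Qb →+* Ω := algebraMap (LaurentSeries Qb) Ω
  let φ : K' →+* Ω := inc.comp ((qExpand Qb h).comp
    ((F.val : F →+* LaurentSeries Qb).comp (algebraMap K' F)))
  letI : Algebra K' Ω := φ.toAlgebra
  have hφ : ∀ x : K', algebraMap K' Ω x = inc (qExpand Qb h ((x : F) : LaurentSeries Qb)) :=
    fun _ => rfl
  have hεc : ∀ (ε : F →ₐ[K'] Ω) (a : Qb), ε.toRingHom (algebraMap Qb F a) = inc (HahnSeries.C a) := by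
    intro ε a
    have h1 : algebraMap Qb F a = algebraMap K' F (algebraMap Qb K' a) := rfl
    rw [h1]
    change ε (algebraMap K' F (algebraMap Qb K' a)) = _
    rw [AlgHom.commutes, hφ]
    have h2 : (((algebraMap Qb K' a : K') : F) : LaurentSeries Qb) = HahnSeries.C a := by
      rw [Fermat.Agent.S28.C_eq_algebraMap]; rfl
    rw [h2, qExpand_C]
  have hεj : ∀ ε : F →ₐ[K'] Ω, ε.toRingHom (jF0 Qb (Set.range gS))
      = inc (qExpand Qb h (jqModC Qb)) := by
    intro ε
    have h1 : jF0 Qb (Set.range gS) = algebraMap K' F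
        ⟨jF0 Qb (Set.range gS), IntermediateField.mem_adjoin_simple_self _ _⟩ := rfl
    rw [h1]
    change ε (algebraMap K' F _) = _
    rw [AlgHom.commutes, hφ]
    rfl
  have hex : ∀ ε : F →ₐ[K'] Ω, ∃ v, ∀ i, ε.toRingHom (gen gS i) = inc (tS v i) :=
    fun ε => exists_tuple h base hjoint inc ε.toRingHom (hεc ε) (hεj ε)
  choose vv hvv using hex
  have hinj : Function.Injective vv := by
    intro ε ε' hv
    have key : ∀ (f : LaurentSeries Qb) (hf : f ∈ F), ε ⟨f, hf⟩ = ε' ⟨f, hf⟩ := by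
      intro f hf
      induction hf using IntermediateField.adjoin_induction with
      | mem x hx =>
        rcases hx with rfl | ⟨i, rfl⟩
        · exact (hεj ε).trans (hεj ε').symm
        · have h1 := hvv ε i
          have h2 := hvv ε' i
          rw [← hv] at h2
          exact h1.trans h2.symm
      | algebraMap a => exact (hεc ε a).trans (hεc ε' a).symm
      | add x y hx hy ihx ihy =>
        have h1 : (⟨x + y, add_mem hx hy⟩ : F) = ⟨x, hx⟩ + ⟨y, hy⟩ := rfl
        rw [h1, map_add, map_add, ihx, ihy]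
      | inv x hx ihx =>
        have h1 : (⟨x⁻¹, inv_mem hx⟩ : F) = (⟨x, hx⟩ : F)⁻¹ := rfl
        rw [h1, map_inv₀, map_inv₀, ihx]
      | mul x y hx hy ihx ihy =>
        have h1 : (⟨x * y, mul_mem hx hy⟩ : F) = ⟨x, hx⟩ * ⟨y, hy⟩ := rfl
        rw [h1, map_mul, map_mul, ihx, ihy]
    ext ⟨f, hf⟩
    exact key f hf
  haveI : CharZero K' := charZero_of_injective_algebraMap (algebraMap Qb K').injective
  haveI : Algebra.IsAlgebraic K' F := Algebra.IsAlgebraic.of_finite K' F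
  haveI : Algebra.IsSeparable K' F := Algebra.IsAlgebraic.isSeparable_of_perfectField
  have hcard := AlgHom.card K' F Ω
  rw [← hcard]
  exact Fintype.card_le_of_injective vv hinj

end

end Fermat.Agent.S48.C1.Inst
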