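import Fermat.Agent.S48.C1.Inst.Packs
import Fermat.Agent.S48.C1.Export
import Fermat.Agent.S54.Frobenius

/-!
# S48 / C1 / Inst : CRUX for a function field with an analytic model
-/

set_option autoImplicit false

open Polynomial ModularCurve UpperHalfPlane
open scoped MatrixGroups IntermediateField

namespace Fermat.Agent.S48.C1.Inst

noncomputable section

open Fermat.Agent.ES (Qb)

namespace AnModel

variable {I V : Type} {h : ℕ} [NeZero h]

/-- coefficients of the generators. -/
theorem nfCoeff (m : AnModel I V h) (L : IntermediateField ℚ Qb) (hL : FiniteDimensional ℚ L)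
    (hLc : ∀ v i n, (m.tS v i).coeff n ∈ L) (i : I) : NFCoeff (m.gS i) := by
  refine ⟨L, hL, fun n => ?_⟩
  have h1 := hLc m.v₀ i ((h : ℤ) * n)
  rwa [m.base, qExpand_coeff_mul] at h1

/-- degree and packs. -/
theorem finrank_eq (m : AnModel I V h) [Fintype I] [Fintype V] (hinj : m.Inj)
    [FiniteDimensional Qb⟮jF0 Qb m.G⟯ (F0 Qb m.G)] :
    Module.finrank Qb⟮jF0 Qb m.G⟯ (F0 Qb m.G) = Fintype.card V :=
  le_antisymm
    (finrank_le_of_joint h m.base fun c => by
      obtain ⟨Φ, -, hΦ⟩ := m.joint hinj c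
      exact ⟨Φ, hΦ⟩)
    (m.card_le_finrank hinj)

/-- **CRUX from an analytic model.** -/
theorem crux1 (Q : B1.QField) [Finite I] [Finite V] (m : AnModel I V h) (hE : Q.E = F0 Qb m.G)
    (L : IntermediateField ℚ Qb) (hL : FiniteDimensional ℚ L)
    (hLc : ∀ v i n, (m.tS v i).coeff n ∈ L)
    (p d : ℕ) (hp : p.Prime) (hd : d.Prime) (hdp : d ≠ p)
    (hint : ∀ A : ValuationSubring Qb, A.LiesOverPrime p → ∀ v i,
      ∃ Y : LaurentSeries A, coeffMap A.subtype Y = m.tS v i)
    (hsep : ∀ A : ValuationSubring Qb, A.LiesOverPrime p → ∀ i v v' (Y Y' : LaurentSeries A),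
      coeffMap A.subtype Y = m.tS v i → coeffMap A.subtype Y' = m.tS v' i →
      coeffMap (IsLocalRing.residue A) Y = coeffMap (IsLocalRing.residue A) Y' →
      m.tS v i = m.tS v' i) :
    B1.Crux1 Q p d := by
  classical
  obtain ⟨V', hV', m', hinj, hg, hv⟩ := m.quot
  have : Fintype I := Fintype.ofFinite I
  have : Fintype V' := Fintype.ofFinite V'
  have hG : m'.G = m.G := by rw [AnModel.G, AnModel.G, hg]
  have hLc' : ∀ v i n, (m'.tS v i).coeff n ∈ L := by
    intro v i n
    obtain ⟨w, -, hw⟩ := hv v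
    rw [hw]
    exact hLc w i n
  have hcusp : ∀ A : ValuationSubring Qb, A.LiesOverPrime p →
      ∀ g ∈ m'.G, HasCuspPolyQ A h (qExpand Qb h g) := by
    rintro A hA _ ⟨i, rfl⟩
    have hex : ∀ v, ∃ Y : LaurentSeries A, coeffMap A.subtype Y = m'.tS v i := by
      intro v
      obtain ⟨w, -, hw⟩ := hv v
      rw [hw]
      exact hint A hA w i
    choose Y hY using hex
    refine m'.hasCuspPolyQ hinj A i Y hY L hL (fun v n => hLc' v i n) ?_
    intro v v' hres
    obtain ⟨w, -, hw⟩ := hv v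
    obtain ⟨w', -, hw'⟩ := hv v'
    have h1 := hsep A hA i w w' (Y v) (Y v') (by rw [hY, hw]) (by rw [hY, hw']) hres
    apply Fermat.Agent.S28.Build.coeffMap_injective A.subtype Subtype.val_injective
    rw [hY, hY, hw, hw', h1]
  obtain ⟨A, hA⟩ : ∃ A : ValuationSubring Qb, A.LiesOverPrime p :=
    Fermat.Agent.S54.exists_liesOverPrime p hp
  have hfd : FiniteDimensional Qb⟮jF0 Qb m'.G⟯ (F0 Qb m'.G) :=
    finiteDimensional_F0 m'.G (Set.finite_range _) (IsLocalRing.residue A) h
      fun g hg => (hcusp A hA g hg).hasCuspPoly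
  refine crux1_of_data Q m'.G (Set.finite_range _) (by rw [hE, hG]) ?_ h p d hp hd hdp hcusp
    (m'.hasPacks hinj (m'.finrank_eq hinj))
  rintro _ ⟨i, rfl⟩
  exact m'.nfCoeff L hL hLc' i

end AnModel

end

end Fermat.Agent.S48.C1.Inst
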