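import Fermat.Agent.S48.C1.Inst.AnModel
import Fermat.Agent.S48.C1.Inst.DegLe
import Fermat.Agent.S24.Packages

/-!
# S48 / C1 / Inst : the embeddings `σ_v : ℚ̄(j, g_i) → ℂ((w))` attached to an analytic model (task S48/C1-Inst-Sigma)
-/

set_option autoImplicit false

open Polynomial ModularCurve UpperHalfPlane
open scoped MatrixGroups IntermediateField

namespace Fermat.Agent.S48.C1.Inst

noncomputable section

open Fermat.Agent.S24 (HolCusp Hol laurent iotaC jfun taylorAt)
open Fermat.Agent.ES (Qb)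

namespace AnModel

variable {I V : Type} {h : ℕ} [NeZero h] (m : AnModel I V h)

/-- evaluation at the generators. -/
def sgPhi : MvPolynomial (Option I) Qb →ₐ[Qb] F0 Qb m.G :=
  MvPolynomial.aeval fun o => o.elim (jF0 Qb m.G) (gen m.gS)

/-- evaluation at the tuple `v`. -/
def sgChi (v : V) : MvPolynomial (Option I) Qb →ₐ[Qb] HolCusp h :=
  MvPolynomial.aeval fun o =>
    o.elim ⟨jfun, Fermat.Agent.S24.jfun_mem_HolCusp h⟩ fun i => ⟨m.tH v i, m.hol v i⟩

theorem laurent_sgChi (p : MvPolynomial (Option I) Qb) :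
    laurent h (m.sgChi m.v₀ p) =
      qExpand ℂ h (coeffMap iotaC ((m.sgPhi p : F0 Qb m.G) : LaurentSeries Qb)) := by
  have e : ((laurent h : HolCusp h →+* LaurentSeries ℂ)).comp
        (m.sgChi m.v₀ : MvPolynomial (Option I) Qb →+* HolCusp h)
      = (((qExpand ℂ h : LaurentSeries ℂ →+* LaurentSeries ℂ).comp (coeffMap iotaC)).comp
          (algebraMap (F0 Qb m.G) (LaurentSeries Qb))).comp
        (m.sgPhi : MvPolynomial (Option I) Qb →+* F0 Qb m.G) := by
    apply MvPolynomial.ringHom_ext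
    · intro a
      simp only [RingHom.comp_apply, RingHom.coe_coe, ← MvPolynomial.algebraMap_eq,
        AlgHom.commutes]
      rw [IsScalarTower.algebraMap_apply Qb ℂ (HolCusp h), AlgHom.commutes,
        ← IsScalarTower.algebraMap_apply Qb (F0 Qb m.G) (LaurentSeries Qb),
        algebraMap_laurentSeries_eq_single, algebraMap_laurentSeries_eq_single, coeffMap_single,
        qExpand_single, mul_zero]
      rfl
    · intro o
      simp only [RingHom.comp_apply, RingHom.coe_coe, sgChi, sgPhi, MvPolynomial.aeval_X]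
      cases o with
      | none =>
        show laurent h ⟨jfun, Fermat.Agent.S24.jfun_mem_HolCusp h⟩ =
          qExpand ℂ h (coeffMap iotaC (jqModC Qb))
        rw [laurent_jfun', coeffMap_jqModC]
      | some i =>
        show laurent h ⟨m.tH m.v₀ i, m.hol m.v₀ i⟩ = qExpand ℂ h (coeffMap iotaC (m.gS i))
        rw [m.lau, m.base, coeffMap_qExpand]
  exact congrArg (fun f => f p) e

theorem sgChi_base_eq_zero_iff (p : MvPolynomial (Option I) Qb) :
    m.sgChi m.v₀ p = 0 ↔ m.sgPhi p = 0 := by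
  constructor
  · intro h0
    have h1 := m.laurent_sgChi p
    rw [h0, map_zero] at h1
    have h2 : coeffMap iotaC ((m.sgPhi p : F0 Qb m.G) : LaurentSeries Qb) = 0 :=
      qExpand_injective h (by rw [← h1, map_zero])
    have h3 : ((m.sgPhi p : F0 Qb m.G) : LaurentSeries Qb) = 0 :=
      Fermat.Agent.S28.Build.coeffMap_injective iotaC iotaC.injective (by rw [h2, map_zero])
    exact Subtype.ext h3
  · intro h0
    have h1 := m.laurent_sgChi p
    rw [h0] at h1
    apply Fermat.Agent.S24.laurent_injective h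
    rw [h1, map_zero]
    simp

theorem sgChi_apply_smul (v : V) (γ : SL(2, ℤ)) (hγ : ∀ i τ, m.tH v i τ = m.tH m.v₀ i (γ • τ))
    (p : MvPolynomial (Option I) Qb) (τ : ℍ) :
    (m.sgChi v p : ℍ → ℂ) τ = (m.sgChi m.v₀ p : ℍ → ℂ) (γ • τ) := by
  have e : ((Pi.evalRingHom (fun _ : ℍ => ℂ) τ).comp ((HolCusp h).val : HolCusp h →+* (ℍ → ℂ))).comp
        (m.sgChi v : MvPolynomial (Option I) Qb →+* HolCusp h)
      = ((Pi.evalRingHom (fun _ : ℍ => ℂ) (γ • τ)).comp
          ((HolCusp h).val : HolCusp h →+* (ℍ → ℂ))).comp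
        (m.sgChi m.v₀ : MvPolynomial (Option I) Qb →+* HolCusp h) := by
    apply MvPolynomial.ringHom_ext
    · intro a
      simp only [RingHom.comp_apply, RingHom.coe_coe, ← MvPolynomial.algebraMap_eq,
        AlgHom.commutes]
      rw [IsScalarTower.algebraMap_apply Qb ℂ (HolCusp h), AlgHom.commutes]
      rfl
    · intro o
      simp only [RingHom.comp_apply, RingHom.coe_coe, sgChi, MvPolynomial.aeval_X]
      cases o with
      | none => exact (Fermat.Agent.S24.jfun_smul γ τ).symm
      | some i => exact hγ i τ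
  exact congrArg (fun f => f p) e

theorem sgChi_eq_zero_iff (v : V) (p : MvPolynomial (Option I) Qb) :
    m.sgChi v p = 0 ↔ m.sgPhi p = 0 := by
  rw [← m.sgChi_base_eq_zero_iff]
  obtain ⟨γ, hγ⟩ := m.trans v
  constructor
  · intro h0
    apply Subtype.ext
    funext τ
    have h1 := m.sgChi_apply_smul v γ hγ p (γ⁻¹ • τ)
    rw [smul_inv_smul, h0] at h1
    exact h1.symm
  · intro h0
    apply Subtype.ext
    funext τ
    have h1 := m.sgChi_apply_smul v γ hγ p τ
    rw [h0] at h1
    exact h1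

theorem holCusp_le_Hol : HolCusp h ≤ Hol := fun _ hf => hf.1

theorem exists_sgPhi_div (f : F0 Qb m.G) :
    ∃ p q : MvPolynomial (Option I) Qb, m.sgPhi q ≠ 0 ∧ f = m.sgPhi p / m.sgPhi q := by
  have hcoe : ∀ p, ((m.sgPhi p : F0 Qb m.G) : LaurentSeries Qb) =
      MvPolynomial.aeval (fun o : Option I => o.elim (jqModC Qb) m.gS) p := by
    intro p
    have e : ((F0 Qb m.G).val).comp m.sgPhi =
        MvPolynomial.aeval (fun o : Option I => o.elim (jqModC Qb) m.gS) := by
      apply MvPolynomial.algHom_ext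
      intro o
      cases o with
      | none => simp [sgPhi, jF0]
      | some i => simp [sgPhi, gen]
    exact congrArg (fun g => g p) e
  have hr : Set.range (fun o : Option I => o.elim (jqModC Qb) m.gS) = insert (jqModC Qb) m.G := by
    ext x
    constructor
    · rintro ⟨o, rfl⟩
      cases o with
      | none => exact Set.mem_insert _ _
      | some i => exact Set.mem_insert_of_mem _ ⟨i, rfl⟩
    · rintro (rfl | ⟨i, rfl⟩)
      · exact ⟨none, rfl⟩
      · exact ⟨some i, rfl⟩
  have hf : (f : LaurentSeries Qb) ∈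
      IntermediateField.adjoin Qb (Set.range fun o : Option I => o.elim (jqModC Qb) m.gS) := by
    rw [hr]
    exact f.2
  rw [IntermediateField.mem_adjoin_range_iff] at hf
  obtain ⟨r, s, hrs⟩ := hf
  by_cases hs : m.sgPhi s = 0
  · refine ⟨0, 1, by simp, ?_⟩
    have hs' : MvPolynomial.aeval (fun o : Option I => o.elim (jqModC Qb) m.gS) s = 0 := by
      rw [← hcoe, hs]; rfl
    rw [hs', div_zero] at hrs
    have : f = 0 := Subtype.ext hrs
    simp [this]
  · refine ⟨r, s, hs, Subtype.ext ?_⟩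
    rw [hrs, ← hcoe, ← hcoe]
    rfl

theorem exists_sigma_aux (L : Hol →ₐ[ℂ] LaurentSeries ℂ) (hL : Function.Injective L) (v : V) :
    ∃ σ : F0 Qb m.G →ₐ[Qb] LaurentSeries ℂ,
      σ (jF0 Qb m.G) = L ⟨jfun, Fermat.Agent.S24.Packages.jfun_mem_Hol⟩ ∧
      ∀ i, σ (gen m.gS i) = L ⟨m.tH v i, (m.hol v i).1⟩ := by
  have := Fermat.Agent.S24.Embeddings.isScalarTower_Kb_laurent
  set ψ : MvPolynomial (Option I) Qb →ₐ[Qb] LaurentSeries ℂ :=
    ((L.comp (Subalgebra.inclusion holCusp_le_Hol)).restrictScalars Qb).comp (m.sgChi v) with hψ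
  have hψ0 : ∀ p, ψ p = 0 ↔ m.sgPhi p = 0 := by
    intro p
    rw [← m.sgChi_eq_zero_iff v]
    constructor
    · intro h0
      have h1 : L (Subalgebra.inclusion holCusp_le_Hol (m.sgChi v p)) = 0 := h0
      have h2 := hL (h1.trans (map_zero L).symm)
      exact Subalgebra.inclusion_injective holCusp_le_Hol (h2.trans (map_zero _).symm)
    · intro h0
      show L (Subalgebra.inclusion holCusp_le_Hol (m.sgChi v p)) = 0
      rw [h0, map_zero, map_zero]
  obtain ⟨σ, hσ⟩ := Fermat.Agent.S24.Gen.exists_lift m.sgPhi m.exists_sgPhi_div ψ hψ0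
  refine ⟨σ, ?_, fun i => ?_⟩
  · have h1 := hσ (MvPolynomial.X none)
    have h2 : m.sgPhi (MvPolynomial.X none) = jF0 Qb m.G := by simp [sgPhi]
    rw [h2] at h1
    rw [h1]
    show L (Subalgebra.inclusion holCusp_le_Hol (m.sgChi v (MvPolynomial.X none))) = _
    congr 1
    simp [sgChi]
  · have h1 := hσ (MvPolynomial.X (some i))
    have h2 : m.sgPhi (MvPolynomial.X (some i)) = gen m.gS i := by simp [sgPhi]
    rw [h2] at h1
    rw [h1]
    show L (Subalgebra.inclusion holCusp_le_Hol (m.sgChi v (MvPolynomial.X (some i)))) = _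
    congr 1
    simp [sgChi]

end AnModel

end

end Fermat.Agent.S48.C1.Inst
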