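import Fermat.Agent.S48.C1.Inst.AnModel
import Fermat.Agent.S48.C1.Inst.DegLe
import Fermat.Agent.S48.C1.Inst.Sigma
import Fermat.Agent.S24.Packages

/-!
# S48 / C1 / Inst : Taylor embeddings and packs from an analytic model   (generic version of `S24/{Gen,Embeddings,Packages}`)

TASKS S48/C1-Inst-Sigma (`exists_sigma`), S48/C1-Inst-Packs (`card_le_finrank`, `hasPacks`).

* `exists_sigma`.  `P := MvPolynomial (Option I) ℚ̄`; `φ : P →ₐ[ℚ̄] F := aeval (none ↦ jF0, some i ↦ gen i)`; for `v : V`,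
  `χ_v : P →ₐ[ℚ̄] HolCusp h := aeval (none ↦ jfun, some i ↦ tH v i)` (`ℚ̄`-algebra structure through `ℂ`, as in `S24/Sturm/Kernel.lean : phiHC`).
  (1) `laurent h (χ_{v₀} p) = qExpand ℂ h (coeffMap iotaC (φ p))`: both sides are ring homs in `p` (`MvPolynomial.ringHom_ext` / `algHom_ext`), constants: `S24.Packages.algebraMap_Kb`-type
  computations; `none`: `laurent_jfun'`, `coeffMap_jqModC`; `some i`: `m.lau`, `m.base`, `S28.Build.coeffMap_V`.  So `φ p = 0 ↔ χ_{v₀} p = 0` (`laurent_injective`, `qExpand_injective`,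
  `S28.Build.coeffMap_injective`).
  (2) `m.trans v` gives `γ` with `(χ_v p) τ = (χ_{v₀} p) (γ • τ)` (ring homs again; `jfun_smul`), so `χ_v p = 0 ↔ χ_{v₀} p = 0`.
  (3) `ψ := L ∘ (HolCusp h ↪ Hol) ∘ χ_v`; `S24.Gen.exists_lift φ _ ψ _` (`hφ` from `IntermediateField.mem_adjoin_range_iff` as in `S24.exists_phiF_div`;
  `Set.range (Option.elim ..) = insert j (Set.range gS)`).
* `card_le_finrank` : `L = taylorAt τ₀` for any `τ₀`; the `σ_v` are distinct (`hinj`, `taylorAt_injective`) and agree on `j`: `S24.Packages.card_le_finrank_of_embeddings`.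
* `hasPacks` : as `Crux/GT/PF/Pack.lean` (`package_aux`, `package_at`) + `S24.package_generic / package_I / package_rho`:
  `c₀ = 0`: `τ₀ = rhoH` (`order_jfun_rho`, `jfun_rho`); `c₀ = 1728`: `τ₀ = I` (`order_jfun_sub_I`, `jfun_I`); otherwise `jfun_surjective`, `order_jfun_sub_generic`; `taylorAt_order`.
  `taylorAt τ₀ f = ofPowerSeries (ser (pull τ₀ f))` (`taylorAt_apply`), so `v := ser (pull τ₀ jfun) - C (iotaC c₀)`.  Reindex by `Fintype.equivFinOfCardEq`.
-/

set_option autoImplicit false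

open Polynomial ModularCurve UpperHalfPlane
open scoped MatrixGroups IntermediateField

namespace Fermat.Agent.S48.C1.Inst

noncomputable section

open Fermat.Agent.S24 (HolCusp Hol laurent iotaC jfun taylorAt)
open Fermat.Agent.ES (Qb)

/-- the base point and the ramification index over `c₀`. -/
theorem Packs_exists_tau (c₀ : Qb) :
    ∃ (τ₀ : ℍ) (e₀ : ℕ), 0 < e₀ ∧
      (taylorAt τ₀ (⟨jfun, Fermat.Agent.S24.Packages.jfun_mem_Hol⟩
        - algebraMap ℂ Hol (iotaC c₀))).order = e₀ ∧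
      (c₀ = 0 → e₀ = 3) ∧ (c₀ = 1728 → e₀ = 2) ∧ (c₀ ≠ 0 → c₀ ≠ 1728 → e₀ = 1) := by
  have h1728 : (1728 : Qb) ≠ 0 := by norm_num
  by_cases h0 : c₀ = 0
  · subst h0
    refine ⟨Fermat.Agent.S24.rhoH, 3, by norm_num, ?_, fun _ => rfl,
      fun h => absurd h.symm h1728, fun h => absurd rfl h⟩
    rw [map_zero, map_zero, sub_zero]
    have := Fermat.Agent.S24.taylorAt_order Fermat.Agent.S24.rhoH
      ⟨jfun, Fermat.Agent.S24.Packages.jfun_mem_Hol⟩ 3
      (by rw [Fermat.Agent.S24.order_jfun_rho]; rfl)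
    rw [this]
  by_cases h1 : c₀ = 1728
  · subst h1
    refine ⟨UpperHalfPlane.I, 2, by norm_num, ?_, fun h => absurd h h0, fun _ => rfl,
      fun _ h => absurd rfl h⟩
    have := Fermat.Agent.S24.taylorAt_order UpperHalfPlane.I
      (⟨jfun, Fermat.Agent.S24.Packages.jfun_mem_Hol⟩ - algebraMap ℂ Hol (iotaC 1728)) 2
      (by
        rw [Fermat.Agent.S24.Packages.coe_sub_const, map_ofNat iotaC 1728,
          Fermat.Agent.S24.order_jfun_sub_I]
        rfl)
    rw [this]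
  · obtain ⟨τ₀, hτ₀⟩ := Fermat.Agent.S24.jfun_surjective (iotaC c₀)
    refine ⟨τ₀, 1, by norm_num, ?_, fun h => absurd h h0, fun h => absurd h h1, fun _ _ => rfl⟩
    have h0' : jfun τ₀ ≠ 0 := by
      rw [hτ₀]
      intro h
      exact h0 ((map_eq_zero iotaC).mp h)
    have h1' : jfun τ₀ ≠ 1728 := by
      rw [hτ₀]
      intro h
      apply h1
      apply iotaC.injective
      rw [h]
      exact (map_ofNat iotaC 1728).symm
    have := Fermat.Agent.S24.taylorAt_order τ₀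
      (⟨jfun, Fermat.Agent.S24.Packages.jfun_mem_Hol⟩ - algebraMap ℂ Hol (iotaC c₀)) 1
      (by
        rw [Fermat.Agent.S24.Packages.coe_sub_const, ← hτ₀,
          Fermat.Agent.S24.order_jfun_sub_generic τ₀ h0' h1']
        rfl)
    rw [this]

/-- a Laurent series of positive order is a power series of the same order. -/
theorem Packs_exists_powerSeries (W : LaurentSeries ℂ) (e₀ : ℕ) (he : 0 < e₀)
    (hWord : W.order = e₀) :
    ∃ v : PowerSeries ℂ, HahnSeries.ofPowerSeries ℤ ℂ v = W ∧ v.order = e₀ := by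
  have hW0 : W ≠ 0 := by
    intro h
    rw [h, HahnSeries.order_zero] at hWord
    have : (e₀ : ℤ) = 0 := hWord.symm
    omega
  have hlt : ∀ k : ℤ, k < e₀ → W.coeff k = 0 := fun k hk =>
    HahnSeries.coeff_eq_zero_of_lt_order (by rw [hWord]; exact hk)
  refine ⟨PowerSeries.mk fun n : ℕ => W.coeff n, ?_, ?_⟩
  · ext k
    have := PowerSeries.coeff_coe (R := ℂ) (PowerSeries.mk fun n : ℕ => W.coeff n) k
    refine this.trans ?_
    split_ifs with hk
    · exact (hlt k (by omega)).symm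
    · rw [PowerSeries.coeff_mk, Int.natCast_natAbs, abs_of_nonneg (not_lt.mp hk)]
  · rw [PowerSeries.order_eq_nat]
    refine ⟨?_, fun i hi => ?_⟩
    · rw [PowerSeries.coeff_mk, ← hWord]
      exact fun h => hW0 (HahnSeries.coeff_order_eq_zero.1 h)
    · rw [PowerSeries.coeff_mk]
      exact hlt i (by exact_mod_cast hi)

namespace AnModel

variable {I V : Type} {h : ℕ} [NeZero h] (m : AnModel I V h)

theorem exists_sigma (L : Hol →ₐ[ℂ] LaurentSeries ℂ) (hL : Function.Injective L) (v : V) :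
    ∃ σ : F0 Qb m.G →ₐ[Qb] LaurentSeries ℂ,
      σ (jF0 Qb m.G) = L ⟨jfun, Fermat.Agent.S24.Packages.jfun_mem_Hol⟩ ∧
      ∀ i, σ (gen m.gS i) = L ⟨m.tH v i, (m.hol v i).1⟩ :=
  m.exists_sigma_aux L hL v

/-- the Taylor embeddings at `τ₀`. -/
theorem exists_taylor_family (hinj : m.Inj) (τ₀ : ℍ) :
    ∃ σ : V → F0 Qb m.G →ₐ[Qb] LaurentSeries ℂ, Function.Injective σ ∧
      ∀ v, σ v (jF0 Qb m.G) = taylorAt τ₀ ⟨jfun, Fermat.Agent.S24.Packages.jfun_mem_Hol⟩ := by
  choose σ hσj hσg using fun v =>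
    m.exists_sigma (taylorAt τ₀) (Fermat.Agent.S24.taylorAt_injective τ₀) v
  refine ⟨σ, fun v v' hvv' => hinj v v' fun i => ?_, hσj⟩
  have h1 : taylorAt τ₀ ⟨m.tH v i, (m.hol v i).1⟩ = taylorAt τ₀ ⟨m.tH v' i, (m.hol v' i).1⟩ := by
    rw [← hσg v i, ← hσg v' i, hvv']
  exact congrArg Subtype.val (Fermat.Agent.S24.taylorAt_injective τ₀ h1)

theorem card_le_finrank [Fintype V] (hinj : m.Inj)
    [FiniteDimensional Qb⟮jF0 Qb m.G⟯ (F0 Qb m.G)] :
    Fintype.card V ≤ Module.finrank Qb⟮jF0 Qb m.G⟯ (F0 Qb m.G) := by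
  obtain ⟨σ, hσ, hσj⟩ := m.exists_taylor_family hinj UpperHalfPlane.I
  rw [← Nat.card_eq_fintype_card]
  exact Fermat.Agent.S24.Packages.card_le_finrank_of_embeddings (jF0 Qb m.G) σ hσ
    (fun a b => by rw [hσj a, hσj b])

theorem hasPacks [Fintype V] (hinj : m.Inj)
    (hcard : Module.finrank Qb⟮jF0 Qb m.G⟯ (F0 Qb m.G) = Fintype.card V) :
    HasPacks (F0 Qb m.G) (jF0 Qb m.G) (fun _ => True) := by
  intro c₀
  obtain ⟨τ₀, e₀, he₀, hord, hc0, hc1, hc2⟩ := Packs_exists_tau c₀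
  obtain ⟨σ, hσ, hσj⟩ := m.exists_taylor_family hinj τ₀
  obtain ⟨v, hv, hvo⟩ := Packs_exists_powerSeries _ e₀ he₀ hord
  let e : Fin (Module.finrank Qb⟮jF0 Qb m.G⟯ (F0 Qb m.G)) ≃ V :=
    (Fintype.equivFinOfCardEq hcard.symm).symm
  refine ⟨fun a => (σ (e a) : F0 Qb m.G →+* LaurentSeries ℂ), v, ?_, ?_, ?_, ?_, ?_, ?_,
    fun _ => trivial⟩
  · intro a b hab
    apply e.injective
    apply hσ
    exact AlgHom.coe_ringHom_injective hab
  · intro a x
    show σ (e a) (algebraMap Qb (F0 Qb m.G) x) = _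
    rw [AlgHom.commutes, Fermat.Agent.S24.Packages.algebraMap_Kb]
    rfl
  · intro a
    show σ (e a) (jF0 Qb m.G) = _
    rw [hσj, map_add, hv, HahnSeries.ofPowerSeries_C, map_sub, AlgHom.commutes,
      Fermat.Agent.S24.Packages.algebraMap_C]
    ring
  · intro h0; rw [hvo, hc0 h0]; rfl
  · intro h1; rw [hvo, hc1 h1]; rfl
  · intro h0 h1; rw [hvo, hc2 h0 h1]; rfl

end AnModel

end

end Fermat.Agent.S48.C1.Inst
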